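/-
S59 wiring (helper59).  Sorry-free reductions of the conclusion of S59
(`Mlc1IsModularModelOfExactConductorLevel W`) to simpler targets:

* `exactConductor_of_conductorLevel` : enough to show `W.IsModularModelOfLevel W.conductorLevel`.
* `exactConductor_of_lifting_of_matching` : enough to have (a) modularity of SOME cube-free level
  `N` with `p ^ 2 ∤ N` divisible by all bad primes (the output of an `R = T` theorem at the Wiles
  level `N_Σ`) and (b) the statement of S58 (conductor-level matching) as a hypothesis.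
-/
import Fermat.Prelude.Def_WeierstrassCurve_Mlc1RowStatement
import Fermat.Prelude.Def_WeierstrassCurve_ConductorLevel

set_option autoImplicit false

namespace Fermat.Agent.S59W

open WeierstrassCurve

/-- The exact-conductor-level conclusion of S59 follows from modularity at level
`W.conductorLevel = rad Δ`. -/
theorem exactConductor_of_conductorLevel (W : WeierstrassCurve ℤ) (hΔ : W.Δ ≠ 0)
    (h : W.IsModularModelOfLevel W.conductorLevel) :
    Mlc1IsModularModelOfExactConductorLevel W :=
  ⟨W.conductorLevel, W.conductorLevel_pos, W.squarefree_conductorLevel,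
    fun _ hq => W.prime_dvd_conductorLevel_iff hΔ hq, h⟩

/-- The statement of S58 (conductor-level matching), as a `Prop`. -/
def ConductorLevelMatching : Prop :=
  ∀ (W : WeierstrassCurve ℤ) (_ : W.IsSemistableModel) (N : ℕ)
    (p : ℕ) [Fact p.Prime] (_ : p ≠ 2) (_ : W.ModRepIsIrreducible p)
    (_ : ¬ p ^ 2 ∣ N)
    (_ : W.IsModularModelOfLevel N) (_ : ∀ ℓ : ℕ, ℓ.Prime → (ℓ : ℤ) ∣ W.Δ → ℓ ∣ N)
    (_ : ∀ q : ℕ, q.Prime → ¬ q ^ 3 ∣ N),
    W.IsModularModelOfLevel W.conductorLevel

/-- S59 from (a) modularity at some cube-free level `N`, `p² ∤ N`, divisible by the bad primes and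
(b) conductor-level matching (S58). -/
theorem exactConductor_of_lifting_of_matching (hS58 : ConductorLevelMatching)
    (p : ℕ) (hp : p = 3 ∨ p = 5)
    (W : WeierstrassCurve ℤ) (hΔ : W.Δ ≠ 0) (hW : W.IsSemistableModel)
    (hirr : W.ModRepIsIrreducible p)
    (N : ℕ) (hN : W.IsModularModelOfLevel N)
    (hbad : ∀ ℓ : ℕ, ℓ.Prime → (ℓ : ℤ) ∣ W.Δ → ℓ ∣ N)
    (hp2N : ¬ p ^ 2 ∣ N) (hN3 : ∀ q : ℕ, q.Prime → ¬ q ^ 3 ∣ N) :
    Mlc1IsModularModelOfExactConductorLevel W := by
  have hpp : p.Prime := by
    rcases hp with rfl | rfl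
    · exact Nat.prime_three
    · exact Nat.prime_five
  have : Fact p.Prime := ⟨hpp⟩
  have hp2 : p ≠ 2 := by
    rcases hp with rfl | rfl <;> decide
  exact exactConductor_of_conductorLevel W hΔ
    (hS58 W hW N p hp2 hirr hp2N hN hbad hN3)

end Fermat.Agent.S59W
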